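import Mathlib
import Fermat.Agent.LT.T7.H816.IotaSpec
import Fermat.Agent.LT.A2.H743.BaseChange

/-!
# Row LT, tower T7, node T7.L2.1 `SupplyC`, leaf C2.4-I.1 `PreFinC816` (helper327, row 2469)

OFF-MAIN, never land.  Complete proof, nothing assumed.

    preFinC327 (K K') : H816.PreFinC816 K K'        (VERBATIM, any extension of number fields)

The base change of the finite adeles is `A2.H743.finBC743` (helper743, tower A2, Mathlib only:
`RestrictedProduct.mapAlongRingHom` along `w ↦ w ∩ 𝓞_K` with the extensions by continuity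
`K_v → K'_w` of `K → K'`); `e` is the ramification index.  The only new step is the dictionary
`T7.PlaceOver K K' v w → finUnder743 K K' w = v`.

The module states no definition and unfolds none by `simp` / `rw` / `unfold`.
-/

set_option autoImplicit false
set_option linter.unusedSectionVars false

open IsDedekindDomain NumberField

noncomputable section

namespace Fermat.Agent.LT.T7.H327

open Fermat.Agent.LT.T7 Fermat.Agent.LT.A2.H743

variable (K K' : Type) [Field K] [NumberField K] [Field K'] [NumberField K'] [Algebra K K']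

/-- The integer `algebraMap (𝓞 K) (𝓞 K') x` of `K'` is the image of `x` under `K → K'`. -/
theorem coe_algebraMap327 (x : 𝓞 K) :
    ((algebraMap (𝓞 K) (𝓞 K') x : 𝓞 K') : K') = algebraMap K K' (x : K) :=
  (IsScalarTower.algebraMap_apply (𝓞 K) (𝓞 K') K' x).symm.trans
    (IsScalarTower.algebraMap_apply (𝓞 K) K K' x)

/-- A place `w` of `K'` over `v` (in the sense of `T7.PlaceOver`) has `v` under it. -/
theorem finUnder_eq_of_placeOver327 {v : HeightOneSpectrum (𝓞 K)}
    {w : HeightOneSpectrum (𝓞 K')} (h : PlaceOver K K' v w) : finUnder743 K K' w = v := by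
  refine HeightOneSpectrum.ext (Ideal.ext fun x => ?_)
  have h1 : x ∈ (finUnder743 K K' w).asIdeal ↔ algebraMap (𝓞 K) (𝓞 K') x ∈ w.asIdeal :=
    Iff.rfl
  exact h1.trans (h x (algebraMap (𝓞 K) (𝓞 K') x) (coe_algebraMap327 K K' x)).symm

/-- **LEAF I.1 = PRE-FIN** (registry row 2469): the base change of the finite adeles. -/
theorem preFinC327 : H816.PreFinC816 K K' := by
  refine ⟨finBC743 K K', continuous_finBC743 K K', ?_, ?_⟩
  · intro x
    refine FiniteAdeleRing.ext (R := 𝓞 K') (K := K') fun w => ?_
    exact finLoc_coe743 K K' w x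
  · intro v w hvw
    obtain rfl := finUnder_eq_of_placeOver327 K K' hvw
    exact ⟨ramIdx743 K K' w, finLoc743 K K' w, Nat.pos_of_ne_zero (ramIdx_ne_zero743 K K' w),
      fun x => finLoc_coe743 K K' w x, fun x => valued_finLoc743 K K' w x, fun _ => rfl⟩

end Fermat.Agent.LT.T7.H327

end
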